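import Mathlib
import Fermat.Agent.LT.T1.Spec
import Fermat.Agent.LT.H11.LC
import Fermat.Agent.LT.H767.AdeleCocompact

/-!
# Row LT, tower T1, leaf `AddFundDomC` (helper886): a fundamental domain for `K` in `𝔸_K`

OFF-MAIN.  Imports: Mathlib, `LT/T1/Spec.lean` (helper54@675fbadd3, v1, byte-identical copy,
sha256 e8ae48d6...; only the vocabulary `Adl`, `princ`, `AddFundDomC`, `LeafAddFundDom` is
used), `LT/H11/LC.lean` (helper11, byte-identical copy, sha256 8ca09ef8...),
`LT/H767/{LocalCompact,StrongApprox,AdeleCocompact}.lean` (helper767@1fe9ed490, byte-identical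
copies, sha256 accafb44..., 710a865c..., 9ffa3739...).

The set
`D = {a | (a_∞ ∈ ZSpan.fundamentalDomain (latticeBasis K)) ∧ ∀ v, a_v ∈ 𝒪_v}`
is a strict Borel fundamental domain of `K` in `𝔸_K`, it is relatively compact, and
`0 < μ D < ∞` for every additive Haar measure `μ`.

* `fundDom886 K`                   : the set `D`,
* `existsUnique_vadd_mem_fundDom886` : strictness (`∀ a, ∃! ξ ∈ K, ξ + a ∈ D`),
* `measurableSet_fundDom886`, `isCompact_closure_fundDom886`, `measure_fundDom886_pos`,
  `measure_fundDom886_lt_top`,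
* `addFundDomC886 K : T1.AddFundDomC K` (verbatim the interface Prop of `T1/Spec.lean`),
* `leafAddFundDom886 K : T1.LeafAddFundDom K` (leaf T1.04 of `structure Leaves`; the hypotheses
  `LocCompC K`, `AdeleLatticeC K` are not used),
* `exists_isAddHaarMeasure886`, `exists_haar_fundDom886` (= EXISTS-FD of the T8 memo of helper106:
  the quantifiers `∀ μ D` of `A0.IsCuspidalFn` are not vacuous).

No Haar-measure construction is needed: the statement is for every additive Haar measure `μ`
(w.r.t. the Borel σ-algebra) and uses only `IsFiniteMeasureOnCompacts`, `IsAddLeftInvariant`,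
`μ ≠ 0`.
-/

set_option autoImplicit false

open IsDedekindDomain NumberField MeasureTheory
open IsDedekindDomain.HeightOneSpectrum
open scoped Classical

noncomputable section

namespace Fermat.Agent.LT.T1.H886

open Fermat.Agent.LT.H556.A0 Fermat.Agent.LT.T1

variable (K : Type) [Field K] [NumberField K]

/-- The infinite component of an adele, in the mixed space `ℝ^{r₁} × ℂ^{r₂}`. -/
def infMap886 (a : Adl K) : mixedEmbedding.mixedSpace K :=
  InfiniteAdeleRing.ringEquiv_mixedSpace K a.1

/-- The set of adeles that are integral at all finite places. -/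
def intAdl886 : Set (Adl K) :=
  {a | ∀ v : HeightOneSpectrum (𝓞 K), a.2 v ∈ v.adicCompletionIntegers K}

/-- The fundamental domain: `ZSpan.fundamentalDomain` at infinity, integral at the finite places. -/
def fundDom886 : Set (Adl K) :=
  {a | infMap886 K a ∈ ZSpan.fundamentalDomain (mixedEmbedding.latticeBasis K)} ∩ intAdl886 K

theorem continuous_infMap886 : Continuous (infMap886 K) := by
  have h : infMap886 K = fun a : Adl K =>
      ((fun v : {w : InfinitePlace K // w.IsReal} =>
          InfinitePlace.Completion.extensionEmbeddingOfIsReal v.2 (a.1 v.1)),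
        (fun v : {w : InfinitePlace K // w.IsComplex} =>
          InfinitePlace.Completion.extensionEmbedding v.1 (a.1 v.1))) := by
    funext a
    exact InfiniteAdeleRing.ringEquiv_mixedSpace_apply K a.1
  rw [h]
  have hfst : Continuous fun a : Adl K => a.1 := continuous_fst
  refine Continuous.prodMk (continuous_pi fun v => ?_) (continuous_pi fun v => ?_)
  · exact (InfinitePlace.Completion.isometry_extensionEmbeddingOfIsReal v.2).continuous.comp
      ((continuous_apply v.1).comp hfst)
  · exact (InfinitePlace.Completion.isometry_extensionEmbedding v.1).continuous.comp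
      ((continuous_apply v.1).comp hfst)

theorem isOpen_intAdl886 : IsOpen (intAdl886 K) := by
  have h2 : IsOpen {f : FiniteAdeleRing (𝓞 K) K |
      ∀ v : HeightOneSpectrum (𝓞 K), f v ∈ v.adicCompletionIntegers K} :=
    RestrictedProduct.isOpen_forall_mem (fun v => Valued.isOpen_valuationSubring _)
  exact h2.preimage continuous_snd

theorem intAdl886_subset_fundDom886 : fundDom886 K ⊆ intAdl886 K := Set.inter_subset_right

/-- `infMap886` is additive. -/
theorem infMap886_add (a b : Adl K) : infMap886 K (a + b) = infMap886 K a + infMap886 K b := by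
  change InfiniteAdeleRing.ringEquiv_mixedSpace K (a.1 + b.1) = _
  exact map_add _ _ _

/-- On principal adeles `infMap886` is the mixed embedding. -/
theorem infMap886_algebraMap (x : K) :
    infMap886 K (algebraMap K (Adl K) x) = mixedEmbedding K x :=
  (InfiniteAdeleRing.mixedEmbedding_eq_algebraMap_comp K (x := x)).symm

/-- The finite components of a principal adele. -/
theorem snd_algebraMap886 (x : K) (v : HeightOneSpectrum (𝓞 K)) :
    (algebraMap K (Adl K) x).2 v = algebraMap K (v.adicCompletion K) x := rfl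

/-- An element of `K` that is integral at all finite places is in `𝓞 K`. -/
theorem mem_range_of_forall_mem886 (k : K)
    (h : ∀ v : HeightOneSpectrum (𝓞 K),
      algebraMap K (v.adicCompletion K) k ∈ v.adicCompletionIntegers K) :
    k ∈ (algebraMap (𝓞 K) K).range := by
  refine mem_integers_of_valuation_le_one K k fun v => ?_
  have := h v
  rw [mem_adicCompletionIntegers] at this
  rw [← valuedAdicCompletion_eq_valuation' v k]
  exact this

/-- The image of `𝓞 K` in the mixed space is the `ℤ`-span of the lattice basis. -/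
theorem mixedEmbedding_mem_span886 (b : 𝓞 K) :
    mixedEmbedding K (algebraMap (𝓞 K) K b) ∈
      Submodule.span ℤ (Set.range (mixedEmbedding.latticeBasis K)) :=
  (mixedEmbedding.mem_span_latticeBasis K).mpr ⟨b, rfl⟩

/-- **Strictness**: every adele has exactly one `K`-translate in `fundDom886 K`. -/
theorem existsUnique_vadd_mem_fundDom886 (a : Adl K) :
    ∃! g : princ K, g +ᵥ a ∈ fundDom886 K := by
  -- existence
  obtain ⟨k, hk⟩ := Fermat.Agent.LT.H767.exists_sub_mem_integers K a.2
  obtain ⟨m, hm, -⟩ := ZSpan.exist_unique_vadd_mem_fundamentalDomain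
    (mixedEmbedding.latticeBasis K) (infMap886 K (a - algebraMap K (Adl K) k))
  obtain ⟨b, hb⟩ := (mixedEmbedding.mem_span_latticeBasis K).mp m.2
  have hb' : mixedEmbedding K (algebraMap (𝓞 K) K b) = (m : mixedEmbedding.mixedSpace K) := hb
  have hex : (⟨algebraMap K (Adl K) (algebraMap (𝓞 K) K b - k), ⟨_, rfl⟩⟩ : princ K) +ᵥ a
      ∈ fundDom886 K := by
    have hv : (⟨algebraMap K (Adl K) (algebraMap (𝓞 K) K b - k), ⟨_, rfl⟩⟩ : princ K) +ᵥ a
        = algebraMap K (Adl K) (algebraMap (𝓞 K) K b) + (a - algebraMap K (Adl K) k) := by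
      change algebraMap K (Adl K) (algebraMap (𝓞 K) K b - k) + a = _
      rw [map_sub]; ring
    rw [hv]
    refine ⟨?_, fun v => ?_⟩
    · change infMap886 K _ ∈ ZSpan.fundamentalDomain (mixedEmbedding.latticeBasis K)
      rw [infMap886_add, infMap886_algebraMap, hb']
      exact hm
    · change (algebraMap K (Adl K) (algebraMap (𝓞 K) K b)).2 v
        + (a.2 v - (algebraMap K (Adl K) k).2 v) ∈ v.adicCompletionIntegers K
      rw [snd_algebraMap886, snd_algebraMap886]
      exact add_mem (coe_algebraMap_mem (𝓞 K) K v b) (hk v)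
  refine ⟨_, hex, ?_⟩
  -- uniqueness
  have huniq : ∀ g₁ g₂ : princ K, g₁ +ᵥ a ∈ fundDom886 K → g₂ +ᵥ a ∈ fundDom886 K → g₁ = g₂ := by
    rintro ⟨_, k₁, rfl⟩ ⟨_, k₂, rfl⟩ h₁ h₂
    have e₁ : (⟨(algebraMap K (Adl K)).toAddMonoidHom k₁, ⟨k₁, rfl⟩⟩ : princ K) +ᵥ a
        = algebraMap K (Adl K) k₁ + a := rfl
    have e₂ : (⟨(algebraMap K (Adl K)).toAddMonoidHom k₂, ⟨k₂, rfl⟩⟩ : princ K) +ᵥ a
        = algebraMap K (Adl K) k₂ + a := rfl
    rw [e₁] at h₁
    rw [e₂] at h₂
    -- the difference is integral
    have hint : k₁ - k₂ ∈ (algebraMap (𝓞 K) K).range := by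
      refine mem_range_of_forall_mem886 K _ fun v => ?_
      have h1 := h₁.2 v
      have h2 := h₂.2 v
      have : algebraMap K (v.adicCompletion K) (k₁ - k₂)
          = (algebraMap K (Adl K) k₁ + a).2 v - (algebraMap K (Adl K) k₂ + a).2 v := by
        change _ = ((algebraMap K (Adl K) k₁).2 v + a.2 v) - ((algebraMap K (Adl K) k₂).2 v + a.2 v)
        rw [snd_algebraMap886, snd_algebraMap886, map_sub]; ring
      rw [this]
      exact sub_mem h1 h2
    obtain ⟨c, hc⟩ := hint
    have hspan := mixedEmbedding_mem_span886 K c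
    rw [hc] at hspan
    -- uniqueness in the mixed space
    have hu := ZSpan.exist_unique_vadd_mem_fundamentalDomain
      (mixedEmbedding.latticeBasis K) (infMap886 K (algebraMap K (Adl K) k₂ + a))
    have m1 : (⟨mixedEmbedding K (k₁ - k₂), hspan⟩ :
        Submodule.span ℤ (Set.range (mixedEmbedding.latticeBasis K)))
          +ᵥ infMap886 K (algebraMap K (Adl K) k₂ + a)
        ∈ ZSpan.fundamentalDomain (mixedEmbedding.latticeBasis K) := by
      have : (⟨mixedEmbedding K (k₁ - k₂), hspan⟩ :
          Submodule.span ℤ (Set.range (mixedEmbedding.latticeBasis K)))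
            +ᵥ infMap886 K (algebraMap K (Adl K) k₂ + a)
          = infMap886 K (algebraMap K (Adl K) k₁ + a) := by
        change mixedEmbedding K (k₁ - k₂) + infMap886 K (algebraMap K (Adl K) k₂ + a) = _
        rw [infMap886_add, infMap886_add, infMap886_algebraMap, infMap886_algebraMap, map_sub]
        abel
      rw [this]
      exact h₁.1
    have m2 : (0 : Submodule.span ℤ (Set.range (mixedEmbedding.latticeBasis K)))
          +ᵥ infMap886 K (algebraMap K (Adl K) k₂ + a)
        ∈ ZSpan.fundamentalDomain (mixedEmbedding.latticeBasis K) := by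
      rw [zero_vadd]
      exact h₂.1
    have h0 := hu.unique m1 m2
    have h0' : mixedEmbedding K (k₁ - k₂) = 0 := congrArg Subtype.val h0
    have hk : k₁ - k₂ = 0 := by
      have hinj := mixedEmbedding_injective K
      exact hinj (by rw [h0', map_zero])
    have hk' : k₁ = k₂ := sub_eq_zero.mp hk
    subst hk'
    rfl
  intro g hg
  exact huniq _ _ hg hex

/-- `fundDom886 K` is a Borel set. -/
theorem measurableSet_fundDom886 [MeasurableSpace (Adl K)] [BorelSpace (Adl K)] :
    MeasurableSet (fundDom886 K) := by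
  refine MeasurableSet.inter ?_ (isOpen_intAdl886 K).measurableSet
  exact (continuous_infMap886 K).measurable
    (ZSpan.fundamentalDomain_measurableSet (mixedEmbedding.latticeBasis K))

/-- `fundDom886 K` is contained in the compact box of helper767. -/
theorem fundDom886_subset_adeleBox : fundDom886 K ⊆ Fermat.Agent.LT.H767.adeleBox K := by
  rintro a ⟨h1, h2⟩
  refine ⟨fun v => ?_, h2⟩
  have h1' : infMap886 K a ∈ ZSpan.fundamentalDomain (mixedEmbedding.latticeBasis K) := h1
  have hnorm : ‖InfiniteAdeleRing.ringEquiv_mixedSpace K a.1‖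
      ≤ Fermat.Agent.LT.H767.infBound K := by
    have h := ZSpan.norm_fract_le (mixedEmbedding.latticeBasis K) (infMap886 K a)
    rw [ZSpan.fract_eq_self.mpr h1'] at h
    exact h
  by_cases hv : v.IsReal
  · have e1 : ‖a.1 v‖ = ‖(InfiniteAdeleRing.ringEquiv_mixedSpace K a.1).1 ⟨v, hv⟩‖ := by
      rw [InfiniteAdeleRing.ringEquiv_mixedSpace_apply]
      exact ((InfinitePlace.Completion.isometry_extensionEmbeddingOfIsReal hv).norm_map_of_map_zero
        (map_zero _) (a.1 v)).symm
    rw [e1]
    exact le_trans (norm_le_pi_norm _ _) (le_trans (norm_fst_le _) hnorm)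
  · have hc : v.IsComplex := InfinitePlace.not_isReal_iff_isComplex.mp hv
    have e1 : ‖a.1 v‖ = ‖(InfiniteAdeleRing.ringEquiv_mixedSpace K a.1).2 ⟨v, hc⟩‖ := by
      rw [InfiniteAdeleRing.ringEquiv_mixedSpace_apply]
      exact ((InfinitePlace.Completion.isometry_extensionEmbedding v).norm_map_of_map_zero
        (map_zero _) (a.1 v)).symm
    rw [e1]
    exact le_trans (norm_le_pi_norm _ _) (le_trans (norm_snd_le _) hnorm)

/-- `fundDom886 K` is relatively compact. -/
theorem isCompact_closure_fundDom886 : IsCompact (closure (fundDom886 K)) := by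
  have : T2Space (Adl K) := Fermat.Agent.LT.H11.LC.t2Space_adeleRing_h11 K
  have hc := Fermat.Agent.LT.H767.isCompact_adeleBox K
  exact hc.of_isClosed_subset isClosed_closure
    (closure_minimal (fundDom886_subset_adeleBox K) hc.isClosed)

/-- `fundDom886 K` is a fundamental domain of `K` in `𝔸_K` for every measure. -/
theorem isAddFundamentalDomain_fundDom886 [MeasurableSpace (Adl K)] [BorelSpace (Adl K)]
    (μ : Measure (Adl K)) : IsAddFundamentalDomain (princ K) (fundDom886 K) μ :=
  IsAddFundamentalDomain.mk' (measurableSet_fundDom886 K).nullMeasurableSet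
    (existsUnique_vadd_mem_fundDom886 K)

/-- The principal adeles are countable. -/
theorem countable_princ886 : Countable (princ K) := by
  have hK : Countable K := (Module.finBasis ℚ K).equivFun.injective.countable
  have hs : Function.Surjective
      (fun k : K => (⟨algebraMap K (Adl K) k, ⟨k, rfl⟩⟩ : princ K)) := by
    rintro ⟨_, k, rfl⟩
    exact ⟨k, rfl⟩
  exact hs.countable

/-- The volume of `fundDom886 K` is finite. -/
theorem measure_fundDom886_lt_top [MeasurableSpace (Adl K)] [BorelSpace (Adl K)]
    (μ : Measure (Adl K)) [IsFiniteMeasureOnCompacts μ] : μ (fundDom886 K) < ⊤ :=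
  lt_of_le_of_lt (measure_mono (fundDom886_subset_adeleBox K))
    (Fermat.Agent.LT.H767.isCompact_adeleBox K).measure_lt_top

/-- The volume of `fundDom886 K` is positive. -/
theorem measure_fundDom886_pos [MeasurableSpace (Adl K)] [BorelSpace (Adl K)]
    (μ : Measure (Adl K)) [μ.IsAddHaarMeasure] : 0 < μ (fundDom886 K) := by
  have := countable_princ886 K
  have : VAddInvariantMeasure (princ K) (Adl K) μ := inferInstance
  exact pos_iff_ne_zero.mpr
    ((isAddFundamentalDomain_fundDom886 K μ).measure_ne_zero (NeZero.ne μ))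

/-- **Leaf `T1.AddFundDomC`**, verbatim the interface Prop of `LT/T1/Spec.lean`. -/
theorem addFundDomC886 : AddFundDomC K := by
  let _ : MeasurableSpace (Adl K) := borel (Adl K)
  have : BorelSpace (Adl K) := ⟨rfl⟩
  intro μ hμ
  have := hμ
  exact ⟨fundDom886 K, measurableSet_fundDom886 K, isAddFundamentalDomain_fundDom886 K μ,
    isCompact_closure_fundDom886 K, measure_fundDom886_pos K μ, measure_fundDom886_lt_top K μ⟩

/-- **Leaf T1.04** of `T1.Leaves` (`LT/T1/Spec.lean` v1); the hypotheses are not needed. -/
theorem leafAddFundDom886 : LeafAddFundDom K := fun _ _ => addFundDomC886 K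

/-- **EXISTS-HAAR**: the adele ring carries an additive Haar measure (Borel σ-algebra). -/
theorem exists_isAddHaarMeasure886 [MeasurableSpace (Adl K)] [BorelSpace (Adl K)] :
    ∃ μ : Measure (Adl K), μ.IsAddHaarMeasure := by
  have : LocallyCompactSpace (Adl K) := Fermat.Agent.LT.H11.LC.locallyCompactSpace_adeleRing_h11 K
  exact ⟨Measure.addHaar, inferInstance⟩

/-- **EXISTS-FD** (leaf of T8/L6; non-vacuity of `A0.IsCuspidalFn`): there are an additive Haar
measure `μ` on `𝔸_K` (Borel σ-algebra) and a Borel fundamental domain `D` of `K` in `𝔸_K`,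
relatively compact, with `0 < μ D < ∞`.  The subgroup is written as in `A0.IsCuspidalFn`. -/
theorem exists_haar_fundDom886 :
    letI : MeasurableSpace (Adl K) := borel (Adl K)
    ∃ (μ : Measure (Adl K)) (D : Set (Adl K)), μ.IsAddHaarMeasure ∧ MeasurableSet D ∧
      IsAddFundamentalDomain ((algebraMap K (Adl K)).toAddMonoidHom.range) D μ ∧
      IsCompact (closure D) ∧ 0 < μ D ∧ μ D < ⊤ := by
  let _ : MeasurableSpace (Adl K) := borel (Adl K)
  have : BorelSpace (Adl K) := ⟨rfl⟩
  obtain ⟨μ, hμ⟩ := exists_isAddHaarMeasure886 K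
  exact ⟨μ, fundDom886 K, hμ, measurableSet_fundDom886 K, isAddFundamentalDomain_fundDom886 K μ,
    isCompact_closure_fundDom886 K, measure_fundDom886_pos K μ, measure_fundDom886_lt_top K μ⟩

end Fermat.Agent.LT.T1.H886
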